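import Fermat.Agent.Ribet.H667.FrobALSpec
import Fermat.Agent.A2.H129.Kummer

/-!
# Row 37, WALL-q / IA-OLD, leaf FROB-AL: the TOP GLUE, generic in the modulus (helper48)

`N = q·M'`, `q ∤ M'` prime, `A` a valuation ring of `ℚ̄` over `q`, `m > 0` ANY modulus
(`m = p` for WALL-q, `m = p ^ n` for IA-OLD).

Interface (frozen by sub-architect helper667, `Ribet/H667/FrobALSpec.lean`):
`H667.FrobAL.KummerSwapAt m q M' hq hqM A` : the `ℚ̄`-level Kummer form of FROB-AL: for every
Frobenius `φ` at `A` and every Kummer generator `f` modulo `m` whose two reductions are constants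
times `m`-th powers in `k(X₀(M'))` (`SplitGenQ`),
  `φ (w_q f) · f ^ q = c · h ^ m`   (`w_q = H801.swapL`, the Atkin–Lehner swap).
This is the output of the cells LEVEL + DESCENT (abstract core `H729.swapToricVal`).

* `q2For_of_kummerSwap : KummerSwapAt m q M' hq hqM A → Q2For m q M' A (splitPartQ m q M' A)`
  with `u = - w_q` (`H801.wL`): `u` is additive, Galois-equivariant, involutive EVERYWHERE, and
  `φ x = q • u x` on ALL of `splitPartQ` (newness is not used).
* `q2Top : H667.FrobAL.Q2TopStatement` : the frozen TOP GLUE Prop, VERBATIM.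
* `q2Good_of_kummerSwapGood : KummerSwapGoodStatement → H158.WallQ.Q2GoodStatement`.
-/

set_option autoImplicit false
set_option synthInstance.maxHeartbeats 400000
set_option maxHeartbeats 1000000
set_option linter.unusedSectionVars false

noncomputable section

namespace Fermat.Agent.Ribet.H48

open AlgebraicCurve ModularCurve HahnSeries
open Fermat.Agent.S24 Fermat.Agent.A2.H708 Fermat.Agent.A2.H528 Fermat.Agent.A2.H129
open Fermat.Agent.Ribet.Spec Fermat.Agent.Ribet.H944.Wall Fermat.Agent.Ribet.H884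
open Fermat.Agent.Ribet.H158.WallQ Fermat.Agent.Ribet.H801

/-! ## Kummer calculus -/

section Kummer

variable {N : ℕ} [NeZero N] {m : ℕ}

/-- `σ f` is a Kummer generator of `σ x`. -/
theorem isKummerGen_gal48 (σ : Kbar ≃ₐ[ℚ] Kbar) {f : FF N} {x : JZero N}
    (h : IsKummerGen N m f x) : IsKummerGen N m (gal N σ f) (σ • x) := by
  obtain ⟨hf, D, rfl, hD⟩ := h
  set g : SemilinearAut Kbar (FF N) := arithmeticGalois (modularFunctionFieldFull N) σ with hg
  have hτf : gal N σ f ≠ 0 := by simpa using hf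
  refine ⟨hτf, SemilinearAut.degZeroSMulHom g D, ?_, fun v => ?_⟩
  · show _ = g • Pic0.mk D
    rw [SemilinearAut.pic0_smul_mk]
  · have h1 : v.ord (gal N σ f) = (g⁻¹ • v).ord f := ord_smul_eq g v f
    rw [h1, hD]
    simp only [SemilinearAut.coe_degZeroSMulHom, SemilinearAut.divisor_smul_apply]

theorem isKummerGen_mul48 {f f' : FF N} {x x' : JZero N} (h : IsKummerGen N m f x)
    (h' : IsKummerGen N m f' x') : IsKummerGen N m (f * f') (x + x') := by
  obtain ⟨hf, D, rfl, hD⟩ := h
  obtain ⟨hf', D', rfl, hD'⟩ := h'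
  refine ⟨mul_ne_zero hf hf', D + D', rfl, fun v => ?_⟩
  rw [Place.ord_mul v hf hf', hD, hD']
  simp only [AddSubgroup.coe_add, Finsupp.add_apply]
  ring

theorem isKummerGen_one48 : IsKummerGen N m (1 : FF N) 0 := by
  refine ⟨one_ne_zero, 0, rfl, fun v => ?_⟩
  rw [Place.ord_one]
  simp

theorem isKummerGen_pow48 {f : FF N} {x : JZero N} (h : IsKummerGen N m f x) (k : ℕ) :
    IsKummerGen N m (f ^ k) (k • x) := by
  induction k with
  | zero =>
    rw [pow_zero, zero_nsmul]
    exact isKummerGen_one48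
  | succ k ih =>
    rw [pow_succ, succ_nsmul]
    exact isKummerGen_mul48 ih h

/-- A class with a Kummer generator of the shape `c · h ^ m` is trivial. -/
theorem eq_zero_of_isKummerGen_pow48 (hm : m ≠ 0) {c : Kbar} {h : FF N} (hh : h ≠ 0)
    {x : JZero N} (hx : IsKummerGen N m (algebraMap Kbar (FF N) c * h ^ m) x) : x = 0 := by
  obtain ⟨hf, D, rfl, hD⟩ := hx
  have hc : algebraMap Kbar (FF N) c ≠ 0 := left_ne_zero_of_mul hf
  have hprin : (D : Divisor Kbar (FF N)) ∈ Divisor.principal (K := Kbar) (F := FF N) := by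
    refine ⟨h, hh, fun v => ?_⟩
    have h1 := hD v
    rw [Place.ord_mul v hc (pow_ne_zero m hh), ord_algebraMap_eq_zero, zero_add,
      ← zpow_natCast, Place.ord_zpow] at h1
    have hm' : (m : ℤ) ≠ 0 := by exact_mod_cast hm
    exact (mul_left_cancel₀ hm' h1).symm
  exact (QuotientAddGroup.eq_zero_iff D).2 (by
    simpa [AddSubgroup.mem_addSubgroupOf] using hprin)

end Kummer

/-! ## The interface with LEVEL + DESCENT and the glue -/

section Glue

variable (m q M' : ℕ) [NeZero M'] [NeZero q] [NeZero (q * M')]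

variable {m q M'}

/-- Kummer form of `w_q` on classes. -/
theorem isKummerGen_swapL48 (hq : q.Prime) (hqM : ¬ q ∣ M') {f : FF (q * M')}
    {x : JZero (q * M')} (h : IsKummerGen (q * M') m f x) :
    IsKummerGen (q * M') m (swapL q M' hq hqM f) (wL q M' hq hqM x) := by
  obtain ⟨hf, D, rfl, hD⟩ := h
  obtain ⟨D', hw, hD'⟩ := wL_mk_of_kummer hq hqM (m := (m : ℤ)) D hf (fun w => (hD w).symm)
  exact ⟨swapL_ne_zero hq hqM hf, D', hw.symm, fun v => (hD' v).symm⟩

/-- The key relation on the generators of the split part: `φ (w_q x) + q x = 0`. -/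
theorem frob_wL_add_of_mem_splitSetQ (hm : 0 < m) (hq : q.Prime) (hqM : ¬ q ∣ M')
    {A : ValuationSubring Kbar} (hK : H667.FrobAL.KummerSwapAt m q M' hq hqM A) {φ : GQ}
    (hφ : A.IsFrobeniusAt φ q) {x : JZero (q * M')} (hx : x ∈ splitSetQ m q M' A) :
    φ • wL q M' hq hqM x + q • x = 0 := by
  obtain ⟨f, hf, hs⟩ := hx
  obtain ⟨c, h, -, hh, heq⟩ := hK φ hφ f x hf hs
  have h1 : IsKummerGen (q * M') m (gal (q * M') φ (swapL q M' hq hqM f) * f ^ q)
      (φ • wL q M' hq hqM x + q • x) :=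
    isKummerGen_mul48 (isKummerGen_gal48 φ (isKummerGen_swapL48 hq hqM hf))
      (isKummerGen_pow48 hf q)
  rw [heq] at h1
  exact eq_zero_of_isKummerGen_pow48 hm.ne' hh h1

/-- The key relation on the split part. -/
theorem frob_wL_add_of_mem_splitPartQ (hm : 0 < m) (hq : q.Prime) (hqM : ¬ q ∣ M')
    {A : ValuationSubring Kbar} (hK : H667.FrobAL.KummerSwapAt m q M' hq hqM A) {φ : GQ}
    (hφ : A.IsFrobeniusAt φ q) {x : JZero (q * M')} (hx : x ∈ splitPartQ m q M' A) :
    φ • wL q M' hq hqM x + q • x = 0 := by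
  unfold splitPartQ at hx
  induction hx using AddSubgroup.closure_induction with
  | mem y hy => exact frob_wL_add_of_mem_splitSetQ hm hq hqM hK hφ hy
  | zero =>
    have h0 : φ • (0 : JZero (q * M')) = 0 := smul_zero (A := JZero (q * M')) φ
    rw [map_zero, h0, smul_zero, add_zero]
  | add y z _ _ hy hz =>
    rw [map_add, smul_add, nsmul_add]
    calc φ • wL q M' hq hqM y + φ • wL q M' hq hqM z + (q • y + q • z)
        = (φ • wL q M' hq hqM y + q • y) + (φ • wL q M' hq hqM z + q • z) := by abel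
      _ = 0 := by rw [hy, hz, add_zero]
  | neg y _ hy =>
    have h0 : φ • -(wL q M' hq hqM y) = -(φ • wL q M' hq hqM y) :=
      smul_neg (A := JZero (q * M')) φ _
    rw [map_neg, h0, neg_nsmul, ← neg_add, hy, neg_zero]

/-- **FROB-AL, top glue**: `Frob_q = q · (- w_q)` on the split part, at ANY modulus `m > 0`. -/
theorem q2For_of_kummerSwap (hm : 0 < m) (hq : q.Prime) (hqM : ¬ q ∣ M')
    (A : ValuationSubring Kbar) (hK : H667.FrobAL.KummerSwapAt m q M' hq hqM A) :
    Q2For m q M' A (splitPartQ m q M' A) := by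
  refine ⟨-(wL q M' hq hqM).toAddMonoidHom, fun σ x => ?_, fun x _ _ => ?_,
    fun φ hφ x hx _ => ?_⟩
  · show -(wL q M' hq hqM (σ • x)) = σ • -(wL q M' hq hqM x)
    rw [wL_smul, smul_neg]
  · show -(wL q M' hq hqM (-(wL q M' hq hqM x))) = x
    rw [map_neg, neg_neg, wL_wL]
  · show φ • x = q • -(wL q M' hq hqM x)
    have h1 := frob_wL_add_of_mem_splitPartQ hm hq hqM hK hφ hx
    have h2 : φ • wL q M' hq hqM x = -(q • x) := eq_neg_of_add_eq_zero_left h1
    have h3 : φ • x = wL q M' hq hqM (φ • wL q M' hq hqM x) := by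
      rw [wL_smul, wL_wL]
    rw [h3, h2, map_neg, map_nsmul, neg_nsmul]

/-- **TOP GLUE of (Q2) FROB-AL**: the frozen Prop of `Ribet/H667/FrobALSpec.lean`, verbatim. -/
theorem q2Top : H667.FrobAL.Q2TopStatement :=
  fun _ _ _ _ _ _ hq hqM hm A hK => q2For_of_kummerSwap hm hq hqM A hK

/-- **(Q2) at good levels from DESCENT alone.** -/
theorem q2Good_of_kummerSwapGood (hD : H667.FrobAL.KummerSwapGoodStatement) :
    Q2GoodStatement :=
  H667.FrobAL.q2Good_of q2Top hD

end Glue

end Fermat.Agent.Ribet.H48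

end
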